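import Mathlib
import Fermat.Agent.LT.T6.H783.BadSpec
import Fermat.Agent.LT.T6.H220.UnrLim

/-!
# Row LT, tower T6, sub-leaf T6.18h `CenOddC783` -- helper962, OFF-MAIN

VERBATIM the Prop `H783.CenOddC783` of `T6/H783/BadSpec.lean` (helper783@5e8793b8d), unconditional.

For `l` odd and `z ∈ kˣ` which is not a field norm from `k'`, no `γ ∈ GL₂(k)` with
`|det γ - z²| ≤ exp (-N)` is a norm from `GL₂(k')`, `N = 2 c + 1 - 2 log |z|`, `|l| = exp (-c)`:

* `det (N δ) = N_{k'/k} (det δ)`, conjugate matrices have the same determinant, so `det γ` is a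
  field norm;
* `det γ / z² = 1 + ε`, `|ε| ≤ exp (-(2 c + 1))`, is an `l`-th power `y ^ l` in `k`
  (Newton iteration, `exists_root962`; limits: `H220.approx220`), and `y ^ l = N (i y)`;
* so `z²` is a field norm, `z ^ l = N (i z)` is one, and `z = z ^ l / (z²) ^ ((l - 1) / 2)`.

The trace condition of the `χ`-ball is not used.
-/

set_option autoImplicit false

open scoped Valued
open Fermat.Agent.LT.T6 WithZero

noncomputable section

namespace Fermat.Agent.LT.T6.H962

/-! ## 1. `l`-th roots near `1` in a complete valued field -/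

section Hensel

variable {k : Type} [Field k] [Valued k Γ₀]

theorem val_natCast_le_one962 (n : ℕ) : Valued.v ((n : k)) ≤ 1 := by
  induction n with
  | zero => simp
  | succ n ih =>
    rw [Nat.cast_succ]
    exact (Valued.v.map_add _ _).trans (max_le ih (by simp))

/-- `(w + h) ^ l = w ^ l + l w ^ (l - 1) h + κ h ^ 2` with `κ` integral. -/
theorem binom_two962 (w h : k) (hw : Valued.v w ≤ 1) (hh : Valued.v h ≤ 1) (l : ℕ) :
    ∃ κ : k, Valued.v κ ≤ 1 ∧ (w + h) ^ l = w ^ l + (l : k) * w ^ (l - 1) * h + κ * h ^ 2 := by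
  induction l with
  | zero => exact ⟨0, by simp, by simp⟩
  | succ l ih =>
    obtain ⟨κ, hκ, e⟩ := ih
    refine ⟨(l : k) * w ^ (l - 1) + κ * (w + h), ?_, ?_⟩
    · refine (Valued.v.map_add _ _).trans (max_le ?_ ?_)
      · rw [map_mul, map_pow]
        exact mul_le_one' (val_natCast_le_one962 l) (pow_le_one' hw _)
      · rw [map_mul]
        exact mul_le_one' hκ ((Valued.v.map_add _ _).trans (max_le hw hh))
    · rw [Nat.add_sub_cancel]
      rcases Nat.eq_zero_or_pos l with rfl | hl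
      · push_cast at e ⊢
        linear_combination (w + h) * e
      · have e2 : w ^ (l - 1) * w = w ^ l := by
          rw [← pow_succ, Nat.sub_add_cancel hl]
        push_cast
        linear_combination (w + h) * e + (l : k) * h * e2

/-- `x ^ l - y ^ l = (x - y) μ` with `μ` integral. -/
theorem pow_sub_pow962 (x y : k) (hx : Valued.v x ≤ 1) (hy : Valued.v y ≤ 1) (l : ℕ) :
    ∃ μ : k, Valued.v μ ≤ 1 ∧ x ^ l - y ^ l = (x - y) * μ := by
  induction l with
  | zero => exact ⟨0, by simp, by simp⟩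
  | succ l ih =>
    obtain ⟨μ, hμ, e⟩ := ih
    refine ⟨x * μ + y ^ l, ?_, ?_⟩
    · refine (Valued.v.map_add _ _).trans (max_le ?_ ?_)
      · rw [map_mul]
        exact mul_le_one' hx hμ
      · rw [map_pow]
        exact pow_le_one' hy _
    · have : x ^ (l + 1) - y ^ (l + 1) = x * (x ^ l - y ^ l) + (x - y) * y ^ l := by ring
      rw [this, e]
      ring

theorem val_eq_one_of_sub962 (w : k) (c : ℤ) (hc : 0 ≤ c)
    (hw : Valued.v (w - 1) ≤ exp (-(c + 1))) : Valued.v w = 1 := by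
  have h1 : Valued.v (w - 1) < 1 := by
    refine hw.trans_lt ?_
    rw [← exp_zero, exp_lt_exp]
    omega
  have : w = 1 + (w - 1) := by ring
  rw [this]
  exact Valuation.map_one_add_of_lt _ h1

/-- One Newton step for `X ^ l - a`. -/
theorem newton_step962 (l : ℕ) (c : ℤ) (hc : 0 ≤ c)
    (hvl : Valued.v ((l : k)) = exp (-c)) (a w : k) (n : ℕ)
    (hw : Valued.v (w - 1) ≤ exp (-(c + 1)))
    (hwa : Valued.v (w ^ l - a) ≤ exp (-(2 * c + 1 + (n : ℤ)))) :
    ∃ w' : k, (Valued.v (w' - 1) ≤ exp (-(c + 1)) ∧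
        Valued.v (w' ^ l - a) ≤ exp (-(2 * c + 1 + ((n + 1 : ℕ) : ℤ)))) ∧
      Valued.v (w' - w) ≤ exp (-((n : ℤ) + 1)) := by
  have hw1 : Valued.v w = 1 := val_eq_one_of_sub962 w c hc hw
  have hl0 : (l : k) ≠ 0 := by
    intro h0
    rw [h0, map_zero] at hvl
    exact exp_ne_zero hvl.symm
  have hw0 : w ≠ 0 := by
    intro h0
    rw [h0, map_zero] at hw1
    exact zero_ne_one hw1
  set h : k := -(w ^ l - a) / ((l : k) * w ^ (l - 1)) with hh
  have hden : (l : k) * w ^ (l - 1) ≠ 0 := mul_ne_zero hl0 (pow_ne_zero _ hw0)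
  have hvh : Valued.v h ≤ exp (-(c + 1 + (n : ℤ))) := by
    rw [hh, map_div₀, Valuation.map_neg, map_mul, map_pow, hw1, one_pow, mul_one, hvl,
      div_le_iff₀ (by exact exp_pos), ← exp_add]
    refine hwa.trans ?_
    rw [exp_le_exp]
    omega
  have hvh1 : Valued.v h ≤ 1 := by
    refine hvh.trans ?_
    rw [← exp_zero, exp_le_exp]
    omega
  obtain ⟨κ, hκ, e⟩ := binom_two962 w h hw1.le hvh1 l
  refine ⟨w + h, ⟨?_, ?_⟩, ?_⟩
  · have : w + h - 1 = (w - 1) + h := by ring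
    rw [this]
    refine (Valued.v.map_add _ _).trans (max_le hw (hvh.trans ?_))
    rw [exp_le_exp]
    omega
  · have e2 : (w + h) ^ l - a = κ * h ^ 2 := by
      rw [e]
      have : (l : k) * w ^ (l - 1) * h = -(w ^ l - a) := by
        rw [hh]
        field_simp
      rw [this]
      ring
    rw [e2, map_mul, map_pow]
    calc Valued.v κ * Valued.v h ^ 2 ≤ 1 * (exp (-(c + 1 + (n : ℤ)))) ^ 2 :=
          mul_le_mul' hκ (pow_le_pow_left' hvh 2)
      _ = exp (-(c + 1 + (n : ℤ)) + -(c + 1 + (n : ℤ))) := by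
          rw [one_mul, pow_two, ← exp_add]
      _ ≤ exp (-(2 * c + 1 + ((n + 1 : ℕ) : ℤ))) := by
          rw [exp_le_exp]
          push_cast
          omega
  · have : w + h - w = h := by ring
    rw [this]
    refine hvh.trans ?_
    rw [exp_le_exp]
    omega

/-- **Hensel for `X ^ l - a` near `1`**: with `|l| = exp (-c)`, every `a` with
`|a - 1| ≤ exp (-(2 c + 1))` is an `l`-th power. -/
theorem exists_root962 [CompleteSpace k] (hunif : ∃ ϖ : k, Valued.v ϖ = exp (-1 : ℤ)) (l : ℕ)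
    (hl0 : (l : k) ≠ 0) :
    ∃ c : ℤ, 0 ≤ c ∧ ∀ a : k, Valued.v (a - 1) ≤ exp (-(2 * c + 1)) → ∃ y : k, y ^ l = a := by
  have hv0 : Valued.v ((l : k)) ≠ 0 := (Valuation.ne_zero_iff _).2 hl0
  set c : ℤ := - log (Valued.v ((l : k))) with hc
  have hvl : Valued.v ((l : k)) = exp (-c) := by
    rw [hc, neg_neg, exp_log hv0]
  have hc0 : 0 ≤ c := by
    have h1 := val_natCast_le_one962 (k := k) l
    rw [hvl, ← exp_zero, exp_le_exp] at h1
    omega
  refine ⟨c, hc0, fun a ha => ?_⟩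
  obtain ⟨L, hL0, hL⟩ := H220.approx220 hunif
    (fun n w => Valued.v (w - 1) ≤ exp (-(c + 1)) ∧
      Valued.v (w ^ l - a) ≤ exp (-(2 * c + 1 + (n : ℤ))))
    (fun n w hP => newton_step962 l c hc0 hvl a w n hP.1 hP.2) 1
    ⟨by simp, by
      rw [one_pow, Valuation.map_sub_swap]
      simpa using ha⟩
  refine ⟨L, ?_⟩
  rw [← sub_eq_zero]
  apply H220.eq_zero_of_forall_le220
  intro n
  obtain ⟨w, ⟨hw, hwa⟩, hLw⟩ := hL n
  have hw1 : Valued.v w = 1 := val_eq_one_of_sub962 w c hc0 hw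
  have hLw1 : Valued.v (L - w) ≤ 1 := by
    refine hLw.trans ?_
    rw [← exp_zero, exp_le_exp]
    omega
  have hL1 : Valued.v L ≤ 1 := by
    have : L = (L - w) + w := by ring
    rw [this]
    exact (Valued.v.map_add _ _).trans (max_le hLw1 hw1.le)
  obtain ⟨μ, hμ, e⟩ := pow_sub_pow962 L w hL1 hw1.le l
  have : L ^ l - a = (L - w) * μ + (w ^ l - a) := by
    rw [← e]
    ring
  rw [this]
  refine (Valued.v.map_add _ _).trans (max_le ?_ ?_)
  · rw [map_mul]
    calc Valued.v (L - w) * Valued.v μ ≤ exp (-((n : ℤ) + 1)) * 1 := mul_le_mul' hLw hμ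
      _ = exp (-((n : ℤ) + 1)) := mul_one _
  · refine hwa.trans ?_
    rw [exp_le_exp]
    omega

end Hensel

/-! ## 2. Field norms and determinants of twisted norms -/

section Norm

variable {k' : Type} [Field k']

/-- The field norm in the form of `H783.IsFieldNorm783`: `ζ · s ζ ⋯ s^{l-1} ζ`. -/
def nm962 (s : k' ≃+* k') (l : ℕ) (ζ : k') : k' := ∏ j ∈ Finset.range l, (s ^ j) ζ

theorem nm_mul962 (s : k' ≃+* k') (l : ℕ) (ζ η : k') :
    nm962 s l (ζ * η) = nm962 s l ζ * nm962 s l η := by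
  unfold nm962
  rw [← Finset.prod_mul_distrib]
  exact Finset.prod_congr rfl (fun j _ => map_mul _ _ _)

theorem nm_inv962 (s : k' ≃+* k') (l : ℕ) (ζ : k') : nm962 s l ζ⁻¹ = (nm962 s l ζ)⁻¹ := by
  unfold nm962
  rw [← Finset.prod_inv_distrib]
  exact Finset.prod_congr rfl (fun j _ => map_inv₀ _ _)

theorem nm_pow962 (s : k' ≃+* k') (l : ℕ) (ζ : k') (t : ℕ) :
    nm962 s l (ζ ^ t) = nm962 s l ζ ^ t := by
  unfold nm962
  rw [← Finset.prod_pow]
  exact Finset.prod_congr rfl (fun j _ => map_pow _ _ _)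

theorem pow_apply_of_fixed962 (s : k' ≃+* k') (ζ : k') (h : s ζ = ζ) (j : ℕ) :
    (s ^ j) ζ = ζ := by
  induction j with
  | zero => rfl
  | succ j ih =>
    rw [pow_succ']
    show s ((s ^ j) ζ) = ζ
    rw [ih, h]

theorem nm_of_fixed962 (s : k' ≃+* k') (l : ℕ) (ζ : k') (h : s ζ = ζ) :
    nm962 s l ζ = ζ ^ l := by
  unfold nm962
  rw [Finset.prod_congr rfl (fun j _ => pow_apply_of_fixed962 s ζ h j)]
  simp

theorem det_glAut962 (s : k' ≃+* k') (g : GL (Fin 2) k') :
    ((glAut s g : GL (Fin 2) k') : Matrix (Fin 2) (Fin 2) k').det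
      = s (g : Matrix (Fin 2) (Fin 2) k').det := by
  have := RingHom.map_det (s : k' →+* k') (g : Matrix (Fin 2) (Fin 2) k')
  exact this.symm

theorem det_twNorm962 (s : k' ≃+* k') (n : ℕ) (δ : GL (Fin 2) k') :
    ((twNorm s n δ : GL (Fin 2) k') : Matrix (Fin 2) (Fin 2) k').det
      = nm962 s n (δ : Matrix (Fin 2) (Fin 2) k').det := by
  induction n with
  | zero => simp [twNorm, twN, nm962]
  | succ n ih =>
    have e : twNorm s (n + 1) δ = δ * glAut s (twNorm s n δ) := rfl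
    rw [e, Units.val_mul, Matrix.det_mul, det_glAut962, ih]
    unfold nm962
    rw [Finset.prod_range_succ', map_prod, mul_comm]
    congr 1
    exact Finset.prod_congr rfl (fun j _ => by rw [pow_succ']; rfl)

theorem det_eq_of_isConj962 {a b : GL (Fin 2) k'} (h : IsConj a b) :
    (a : Matrix (Fin 2) (Fin 2) k').det = (b : Matrix (Fin 2) (Fin 2) k').det := by
  obtain ⟨c, hc⟩ := isConj_iff.1 h
  have h1 := congrArg (fun g : GL (Fin 2) k' => (g : Matrix (Fin 2) (Fin 2) k').det) hc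
  simp only [Units.val_mul, Matrix.det_mul] at h1
  have h2 : (c : Matrix (Fin 2) (Fin 2) k').det
      * ((c⁻¹ : GL (Fin 2) k') : Matrix (Fin 2) (Fin 2) k').det = 1 := by
    rw [← Matrix.det_mul, ← Units.val_mul, mul_inv_cancel]
    simp
  rw [← h1]
  calc (a : Matrix (Fin 2) (Fin 2) k').det
      = (a : Matrix (Fin 2) (Fin 2) k').det * ((c : Matrix (Fin 2) (Fin 2) k').det
          * ((c⁻¹ : GL (Fin 2) k') : Matrix (Fin 2) (Fin 2) k').det) := by rw [h2, mul_one]
    _ = _ := by ring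

end Norm

/-! ## 3. The leaf -/

/-- **T6.18h `CenOddC783`**, unconditional. -/
theorem cenOddC962 : H783.CenOddC783 := by
  intro k k' _ _ _ _ q l e i s hk hk' hext hl hl2 z hz hznorm
  have := hk.complete
  have := hk.char0
  have hl0 : ((l : ℕ) : k) ≠ 0 := Nat.cast_ne_zero.2 hl.ne_zero
  obtain ⟨c, -, hroot⟩ := exists_root962 hk.unif l hl0
  have hvz : Valued.v z ≠ 0 := (Valuation.ne_zero_iff _).2 hz
  refine ⟨2 * c + 1 - 2 * log (Valued.v z), fun γ hγ hnorm => hznorm ?_⟩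
  obtain ⟨δ, hδ⟩ := hnorm
  set D : k := (γ : Matrix (Fin 2) (Fin 2) k).det with hD
  have hD0 : D ≠ 0 := Matrix.GeneralLinearGroup.det_ne_zero γ
  -- `det γ` is a field norm
  have hdet : nm962 s l (δ : Matrix (Fin 2) (Fin 2) k').det = i D := by
    rw [← det_twNorm962, det_eq_of_isConj962 hδ]
    exact (RingHom.map_det i (γ : Matrix (Fin 2) (Fin 2) k)).symm
  -- `det γ / z ^ 2` is an `l`-th power
  have hval : Valued.v (D / z ^ 2 - 1) ≤ exp (-(2 * c + 1)) := by
    have e1 : D / z ^ 2 - 1 = (D - z ^ 2) / z ^ 2 := by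
      field_simp
    have hm : Valued.v z = exp (log (Valued.v z)) := (exp_log hvz).symm
    rw [e1, map_div₀, map_pow, div_le_iff₀ (pow_pos (zero_lt_iff.2 hvz) 2)]
    refine hγ.2.trans ?_
    rw [hm, pow_two, ← exp_add, ← exp_add, exp_le_exp, log_exp]
    omega
  obtain ⟨y, hy⟩ := hroot _ hval
  have hy0 : y ≠ 0 := by
    rintro rfl
    rw [zero_pow hl.ne_zero] at hy
    exact (div_ne_zero hD0 (pow_ne_zero 2 hz)) hy.symm
  have hDy : D = y ^ l * z ^ 2 := by
    rw [hy]
    field_simp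
  obtain ⟨t, ht⟩ : ∃ t : ℕ, l = 2 * t + 1 := by
    rcases hl.eq_two_or_odd' with h2 | hodd
    · exact absurd h2 hl2
    · exact hodd
  have hiz : i z ≠ 0 := (map_ne_zero i).2 hz
  have hiy : i y ≠ 0 := (map_ne_zero i).2 hy0
  refine ⟨i z * (((δ : Matrix (Fin 2) (Fin 2) k').det * (i y)⁻¹) ^ t)⁻¹, ?_⟩
  show i z = nm962 s l (i z * (((δ : Matrix (Fin 2) (Fin 2) k').det * (i y)⁻¹) ^ t)⁻¹)
  rw [nm_mul962, nm_inv962, nm_pow962, nm_mul962, nm_inv962, hdet,
    nm_of_fixed962 s l (i z) (hext.cyc.fix_i z), nm_of_fixed962 s l (i y) (hext.cyc.fix_i y),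
    hDy, map_mul, map_pow, map_pow]
  have e3 : (i y ^ l * i z ^ 2 * (i y ^ l)⁻¹) = i z ^ 2 := by
    field_simp
  rw [e3, ← pow_mul, ht]
  field_simp
  ring

end Fermat.Agent.LT.T6.H962

end
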