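import Mathlib
import Fermat.Agent.LT.T6.H179.LocRegSpec
import Fermat.Agent.LT.T6.H220.UnrLim

/-!
# Row LT, tower T6, sub-leaf T6.18f.2 `RootC179` -- helper962, OFF-MAIN

VERBATIM the Prop `H179.RootC179` of `T6/H179/LocRegSpec.lean` (helper179@eb0286de2), unconditional.

`l`-th roots near `1` in `k[γ₀]`:

* abstract part: a commutative ring `A` with an ultrametric, submultiplicative `N : A → Γ₀`
  (`IsUNorm962`), complete and separated for `N`, and `j` with `l * j = 1`, `N j ≤ exp c`: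
  every `u` with `N (u - 1) ≤ exp (-(2 c + 1 + K))` is `L ^ l` with `N (L - 1) ≤ exp (-(c + 1 + K))`
  (iteration `t ↦ t - j (t ^ l - u)`);
* `A = QuadraticAlgebra k a b` (Mathlib) with `|a|, |b| ≤ 1` and the sup norm of `(re, im)`;
* `γ₁ = ϖ ^ m γ₀` has an integral characteristic polynomial, `γ₁ ^ 2 = a + b γ₁` (Cayley-Hamilton),
  `QuadraticAlgebra.lift` is an algebra morphism to `M₂(k)`.

The regularity of `γ₀` is not used.
-/

set_option autoImplicit false

open scoped Valued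
open Fermat.Agent.LT.T6 WithZero

noncomputable section

namespace Fermat.Agent.LT.T6.H962

/-! ## 1. Newton iteration in an ultrametric commutative ring -/

/-- An ultrametric submultiplicative "norm" with values in `Γ₀`. -/
structure IsUNorm962 {A : Type} [CommRing A] (N : A → Γ₀) : Prop where
  map_zero : N 0 = 0
  map_one : N 1 = 1
  map_add : ∀ x y, N (x + y) ≤ max (N x) (N y)
  map_neg : ∀ x, N (-x) = N x
  map_mul : ∀ x y, N (x * y) ≤ N x * N y

section Abstract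

variable {A : Type} [CommRing A] {N : A → Γ₀}

theorem IsUNorm962.map_sub (hN : IsUNorm962 N) (x y : A) : N (x - y) ≤ max (N x) (N y) := by
  rw [sub_eq_add_neg]
  refine (hN.map_add _ _).trans ?_
  rw [hN.map_neg]

theorem IsUNorm962.sub_swap (hN : IsUNorm962 N) (x y : A) : N (x - y) = N (y - x) := by
  rw [← hN.map_neg (x - y), neg_sub]

theorem IsUNorm962.natCast_le (hN : IsUNorm962 N) (n : ℕ) : N (n : A) ≤ 1 := by
  induction n with
  | zero => simp [hN.map_zero]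
  | succ n ih =>
    rw [Nat.cast_succ]
    exact (hN.map_add _ _).trans (max_le ih hN.map_one.le)

theorem IsUNorm962.mul_le_one (hN : IsUNorm962 N) {x y : A} (hx : N x ≤ 1) (hy : N y ≤ 1) :
    N (x * y) ≤ 1 :=
  (hN.map_mul _ _).trans (mul_le_one' hx hy)

theorem IsUNorm962.pow_le_one (hN : IsUNorm962 N) {x : A} (hx : N x ≤ 1) (n : ℕ) :
    N (x ^ n) ≤ 1 := by
  induction n with
  | zero => simp [hN.map_one]
  | succ n ih =>
    rw [pow_succ]
    exact hN.mul_le_one ih hx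

theorem IsUNorm962.add_le_one (hN : IsUNorm962 N) {x y : A} (hx : N x ≤ 1) (hy : N y ≤ 1) :
    N (x + y) ≤ 1 :=
  (hN.map_add _ _).trans (max_le hx hy)

/-- `(w + h) ^ l = w ^ l + l w ^ (l - 1) h + κ h ^ 2` with `N κ ≤ 1`. -/
theorem binomA962 (hN : IsUNorm962 N) (w h : A) (hw : N w ≤ 1) (hh : N h ≤ 1) (l : ℕ) :
    ∃ κ : A, N κ ≤ 1 ∧ (w + h) ^ l = w ^ l + (l : A) * w ^ (l - 1) * h + κ * h ^ 2 := by
  induction l with
  | zero => exact ⟨0, by simp [hN.map_zero], by simp⟩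
  | succ l ih =>
    obtain ⟨κ, hκ, e⟩ := ih
    refine ⟨(l : A) * w ^ (l - 1) + κ * (w + h), ?_, ?_⟩
    · exact hN.add_le_one (hN.mul_le_one (hN.natCast_le l) (hN.pow_le_one hw _))
        (hN.mul_le_one hκ (hN.add_le_one hw hh))
    · rw [Nat.add_sub_cancel]
      rcases Nat.eq_zero_or_pos l with rfl | hl
      · push_cast at e ⊢
        linear_combination (w + h) * e
      · have e2 : w ^ (l - 1) * w = w ^ l := by
          rw [← pow_succ, Nat.sub_add_cancel hl]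
        push_cast
        linear_combination (w + h) * e + (l : A) * h * e2

/-- `x ^ l - y ^ l = (x - y) μ` with `N μ ≤ 1`. -/
theorem pow_sub_powA962 (hN : IsUNorm962 N) (x y : A) (hx : N x ≤ 1) (hy : N y ≤ 1) (l : ℕ) :
    ∃ μ : A, N μ ≤ 1 ∧ x ^ l - y ^ l = (x - y) * μ := by
  induction l with
  | zero => exact ⟨0, by simp [hN.map_zero], by simp⟩
  | succ l ih =>
    obtain ⟨μ, hμ, e⟩ := ih
    refine ⟨x * μ + y ^ l, ?_, ?_⟩
    · exact hN.add_le_one (hN.mul_le_one hx hμ) (hN.pow_le_one hy _)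
    · have : x ^ (l + 1) - y ^ (l + 1) = x * (x ^ l - y ^ l) + (x - y) * y ^ l := by ring
      rw [this, e]
      ring

theorem IsUNorm962.le_one_of_sub (hN : IsUNorm962 N) (w : A) (hw : N (w - 1) ≤ 1) :
    N w ≤ 1 := by
  have : w = (w - 1) + 1 := by ring
  rw [this]
  exact hN.add_le_one hw hN.map_one.le

/-- One step of the iteration `t ↦ t - j (t ^ l - u)`, `l j = 1`. -/
theorem newton_stepA962 (hN : IsUNorm962 N) (l : ℕ) (j : A) (hj : (l : A) * j = 1)
    (c : ℤ) (hc : 0 ≤ c) (hNj : N j ≤ exp c) (K : ℕ) (u t : A) (n : ℕ)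
    (ht : N (t - 1) ≤ exp (-(c + 1 + (K : ℤ))))
    (htu : N (t ^ l - u) ≤ exp (-(2 * c + 1 + (K : ℤ) + (n : ℤ)))) :
    ∃ t' : A, (N (t' - 1) ≤ exp (-(c + 1 + (K : ℤ))) ∧
        N (t' ^ l - u) ≤ exp (-(2 * c + 1 + (K : ℤ) + ((n + 1 : ℕ) : ℤ)))) ∧
      N (t' - t) ≤ exp (-((n : ℤ) + 1)) := by
  have ht1 : N t ≤ 1 := by
    refine hN.le_one_of_sub t (ht.trans ?_)
    rw [← exp_zero, exp_le_exp]
    omega
  set h : A := -(j * (t ^ l - u)) with hh
  have hvh : N h ≤ exp (-(c + 1 + (K : ℤ) + (n : ℤ))) := by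
    rw [hh, hN.map_neg]
    refine (hN.map_mul _ _).trans ?_
    calc N j * N (t ^ l - u) ≤ exp c * exp (-(2 * c + 1 + (K : ℤ) + (n : ℤ))) :=
          mul_le_mul' hNj htu
      _ = exp (-(c + 1 + (K : ℤ) + (n : ℤ))) := by
          rw [← exp_add]
          congr 1
          ring
  have hvh1 : N h ≤ 1 := by
    refine hvh.trans ?_
    rw [← exp_zero, exp_le_exp]
    omega
  obtain ⟨κ, hκ, e⟩ := binomA962 hN t h ht1 hvh1 l
  obtain ⟨μ, hμ, e'⟩ := pow_sub_powA962 hN 1 t hN.map_one.le ht1 (l - 1)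
  rw [one_pow] at e'
  refine ⟨t + h, ⟨?_, ?_⟩, ?_⟩
  · have : t + h - 1 = (t - 1) + h := by ring
    rw [this]
    refine (hN.map_add _ _).trans (max_le ht (hvh.trans ?_))
    rw [exp_le_exp]
    omega
  · have e2 : (t + h) ^ l - u = (t ^ l - u) * ((1 - t) * μ) + κ * h ^ 2 := by
      rw [e, ← e', hh]
      linear_combination (-(t ^ (l - 1) * (t ^ l - u))) * hj
    rw [e2]
    refine (hN.map_add _ _).trans (max_le ?_ ?_)
    · refine (hN.map_mul _ _).trans ?_
      have h1 : N ((1 - t) * μ) ≤ exp (-(c + 1 + (K : ℤ))) := by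
        refine (hN.map_mul _ _).trans ?_
        rw [hN.sub_swap]
        calc N (t - 1) * N μ ≤ exp (-(c + 1 + (K : ℤ))) * 1 := mul_le_mul' ht hμ
          _ = _ := mul_one _
      calc N (t ^ l - u) * N ((1 - t) * μ)
          ≤ exp (-(2 * c + 1 + (K : ℤ) + (n : ℤ))) * exp (-(c + 1 + (K : ℤ))) :=
            mul_le_mul' htu h1
        _ ≤ exp (-(2 * c + 1 + (K : ℤ) + ((n + 1 : ℕ) : ℤ))) := by
            rw [← exp_add, exp_le_exp]
            push_cast
            omega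
    · refine (hN.map_mul _ _).trans ?_
      have h2 : N (h ^ 2) ≤ exp (-(c + 1 + (K : ℤ) + (n : ℤ))) * exp (-(c + 1 + (K : ℤ) + (n : ℤ))) := by
        rw [pow_two]
        exact (hN.map_mul _ _).trans (mul_le_mul' hvh hvh)
      calc N κ * N (h ^ 2)
          ≤ 1 * (exp (-(c + 1 + (K : ℤ) + (n : ℤ))) * exp (-(c + 1 + (K : ℤ) + (n : ℤ)))) :=
            mul_le_mul' hκ h2
        _ ≤ exp (-(2 * c + 1 + (K : ℤ) + ((n + 1 : ℕ) : ℤ))) := by
            rw [one_mul, ← exp_add, exp_le_exp]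
            push_cast
            omega
  · have : t + h - t = h := by ring
    rw [this]
    refine hvh.trans ?_
    rw [exp_le_exp]
    omega

/-- **Roots near `1`**, abstract form. -/
theorem exists_rootA962 (hN : IsUNorm962 N)
    (hlim : ∀ W : ℕ → A, (∀ n, N (W (n + 1) - W n) ≤ exp (-((n : ℤ) + 1))) →
      ∃ L : A, ∀ n, N (L - W n) ≤ exp (-((n : ℤ) + 1)))
    (hsep : ∀ x : A, (∀ n : ℕ, N x ≤ exp (-((n : ℤ) + 1))) → x = 0)
    (l : ℕ) (j : A) (hj : (l : A) * j = 1) (c : ℤ) (hc : 0 ≤ c) (hNj : N j ≤ exp c)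
    (K : ℕ) (u : A) (hu : N (u - 1) ≤ exp (-(2 * c + 1 + (K : ℤ)))) :
    ∃ L : A, N (L - 1) ≤ exp (-(c + 1 + (K : ℤ))) ∧ L ^ l = u := by
  let P : ℕ → A → Prop := fun n t =>
    N (t - 1) ≤ exp (-(c + 1 + (K : ℤ))) ∧ N (t ^ l - u) ≤ exp (-(2 * c + 1 + (K : ℤ) + (n : ℤ)))
  have h₀ : P 0 1 := by
    refine ⟨by simp [hN.map_zero], ?_⟩
    rw [one_pow, hN.sub_swap]
    simpa using hu
  let seq : (n : ℕ) → {t : A // P n t} := fun n =>
    Nat.rec (motive := fun n => {t : A // P n t}) ⟨1, h₀⟩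
      (fun n a => ⟨Classical.choose (newton_stepA962 hN l j hj c hc hNj K u a.1 n a.2.1 a.2.2),
        (Classical.choose_spec (newton_stepA962 hN l j hj c hc hNj K u a.1 n a.2.1 a.2.2)).1⟩)
      n
  have hstep : ∀ n, N ((seq (n + 1)).1 - (seq n).1) ≤ exp (-((n : ℤ) + 1)) := fun n =>
    (Classical.choose_spec
      (newton_stepA962 hN l j hj c hc hNj K u (seq n).1 n (seq n).2.1 (seq n).2.2)).2
  obtain ⟨L, hL⟩ := hlim (fun n => (seq n).1) hstep
  have hL1 : N (L - 1) ≤ exp (-(c + 1 + (K : ℤ))) := by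
    have h1 := hL (c.toNat + K)
    have h2 := (seq (c.toNat + K)).2.1
    have : L - 1 = (L - (seq (c.toNat + K)).1) + ((seq (c.toNat + K)).1 - 1) := by ring
    rw [this]
    refine (hN.map_add _ _).trans (max_le (h1.trans ?_) h2)
    rw [exp_le_exp]
    push_cast
    omega
  refine ⟨L, hL1, ?_⟩
  rw [← sub_eq_zero]
  apply hsep
  intro n
  have hw := (seq n).2
  have hLw := hL n
  set w : A := (seq n).1 with hwdef
  have hw1 : N w ≤ 1 := by
    refine hN.le_one_of_sub w (hw.1.trans ?_)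
    rw [← exp_zero, exp_le_exp]
    omega
  have hLL : N L ≤ 1 := by
    refine hN.le_one_of_sub L (hL1.trans ?_)
    rw [← exp_zero, exp_le_exp]
    omega
  obtain ⟨μ, hμ, e⟩ := pow_sub_powA962 hN L w hLL hw1 l
  have : L ^ l - u = (L - w) * μ + (w ^ l - u) := by
    rw [← e]
    ring
  rw [this]
  refine (hN.map_add _ _).trans (max_le ?_ ?_)
  · refine (hN.map_mul _ _).trans ?_
    calc N (L - w) * N μ ≤ exp (-((n : ℤ) + 1)) * 1 := mul_le_mul' hLw hμ
      _ = exp (-((n : ℤ) + 1)) := mul_one _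
  · refine hw.2.trans ?_
    rw [exp_le_exp]
    omega

end Abstract

/-! ## 2. The quadratic algebra with the sup norm -/

section QA

variable {k : Type} [Field k] [Valued k Γ₀] {a b : k}

/-- The sup norm of the coordinates on `QuadraticAlgebra k a b`. -/
def qn962 (z : QuadraticAlgebra k a b) : Γ₀ := max (Valued.v z.re) (Valued.v z.im)

theorem re_le_qn962 (z : QuadraticAlgebra k a b) : Valued.v z.re ≤ qn962 z := le_max_left _ _

theorem im_le_qn962 (z : QuadraticAlgebra k a b) : Valued.v z.im ≤ qn962 z := le_max_right _ _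

theorem isUNorm_qn962 (ha : Valued.v a ≤ 1) (hb : Valued.v b ≤ 1) :
    IsUNorm962 (qn962 : QuadraticAlgebra k a b → Γ₀) where
  map_zero := by simp [qn962]
  map_one := by
    show max (Valued.v (1 : k)) (Valued.v (0 : k)) = 1
    simp
  map_add x y := by
    unfold qn962
    rw [QuadraticAlgebra.re_add, QuadraticAlgebra.im_add]
    refine max_le ((Valued.v.map_add _ _).trans ?_) ((Valued.v.map_add _ _).trans ?_)
    · exact max_le_max (le_max_left _ _) (le_max_left _ _)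
    · exact max_le_max (le_max_right _ _) (le_max_right _ _)
  map_neg x := by
    unfold qn962
    rw [QuadraticAlgebra.re_neg, QuadraticAlgebra.im_neg, Valuation.map_neg, Valuation.map_neg]
  map_mul x y := by
    have h1 : ∀ p q : k, Valued.v p ≤ qn962 x → Valued.v q ≤ qn962 y →
        Valued.v (p * q) ≤ qn962 x * qn962 y := fun p q hp hq => by
      rw [map_mul]
      exact mul_le_mul' hp hq
    have h2 : ∀ (r p q : k), Valued.v r ≤ 1 → Valued.v p ≤ qn962 x → Valued.v q ≤ qn962 y →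
        Valued.v (r * p * q) ≤ qn962 x * qn962 y := fun r p q hr hp hq => by
      rw [mul_assoc, map_mul]
      calc Valued.v r * Valued.v (p * q) ≤ 1 * (qn962 x * qn962 y) :=
            mul_le_mul' hr (h1 p q hp hq)
        _ = _ := one_mul _
    refine max_le ?_ ?_
    · rw [QuadraticAlgebra.re_mul]
      exact (Valued.v.map_add _ _).trans (max_le
        (h1 _ _ (re_le_qn962 x) (re_le_qn962 y))
        (h2 _ _ _ ha (im_le_qn962 x) (im_le_qn962 y)))
    · rw [QuadraticAlgebra.im_mul]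
      refine (Valued.v.map_add _ _).trans (max_le
        ((Valued.v.map_add _ _).trans (max_le ?_ ?_)) ?_)
      · exact h1 _ _ (re_le_qn962 x) (im_le_qn962 y)
      · exact h1 _ _ (im_le_qn962 x) (re_le_qn962 y)
      · exact h2 _ _ _ hb (im_le_qn962 x) (im_le_qn962 y)

theorem qn_lim962 [CompleteSpace k] (hunif : ∃ ϖ : k, Valued.v ϖ = exp (-1 : ℤ))
    (W : ℕ → QuadraticAlgebra k a b)
    (h : ∀ n, qn962 (W (n + 1) - W n) ≤ exp (-((n : ℤ) + 1))) :
    ∃ L : QuadraticAlgebra k a b, ∀ n, qn962 (L - W n) ≤ exp (-((n : ℤ) + 1)) := by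
  obtain ⟨L₁, hL₁⟩ := H220.exists_lim220 hunif (fun n => (W n).re)
    (fun n => by
      have := (re_le_qn962 (W (n + 1) - W n)).trans (h n)
      rwa [QuadraticAlgebra.re_sub] at this)
  obtain ⟨L₂, hL₂⟩ := H220.exists_lim220 hunif (fun n => (W n).im)
    (fun n => by
      have := (im_le_qn962 (W (n + 1) - W n)).trans (h n)
      rwa [QuadraticAlgebra.im_sub] at this)
  refine ⟨⟨L₁, L₂⟩, fun n => ?_⟩
  unfold qn962
  rw [QuadraticAlgebra.re_sub, QuadraticAlgebra.im_sub]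
  exact max_le (hL₁ n) (hL₂ n)

theorem qn_sep962 (x : QuadraticAlgebra k a b)
    (h : ∀ n : ℕ, qn962 x ≤ exp (-((n : ℤ) + 1))) : x = 0 := by
  ext
  · exact H220.eq_zero_of_forall_le220 _ (fun n => (re_le_qn962 x).trans (h n))
  · exact H220.eq_zero_of_forall_le220 _ (fun n => (im_le_qn962 x).trans (h n))

end QA

/-! ## 3. The leaf -/

section Leaf

variable {k : Type} [Field k] [Valued k Γ₀]

theorem le_exp_toNat962 (x : Γ₀) (m : ℕ) (h : (log x).toNat ≤ m) : x ≤ exp (m : ℤ) := by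
  rcases eq_or_ne x 0 with rfl | hx
  · exact zero_le
  · rw [← exp_log hx, exp_le_exp]
    omega

omit [Valued k Γ₀] in
/-- Cayley-Hamilton for `ϖ ^ m γ₀`. -/
theorem cayley962 (g : Matrix (Fin 2) (Fin 2) k) (p : k) :
    (p • g) * (p • g) = (-(p ^ 2 * g.det)) • (1 : Matrix (Fin 2) (Fin 2) k)
      + (p * g.trace) • (p • g) := by
  ext i j
  fin_cases i <;> fin_cases j <;>
    simp [Matrix.mul_apply, Fin.sum_univ_two, Matrix.det_fin_two, Matrix.trace_fin_two] <;> ring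

/-- **T6.18f.2 `RootC179`**, unconditional. -/
theorem rootC962 : H179.RootC179 := by
  intro k _ _ q hk l hl γ₀ _ M
  have := hk.complete
  have := hk.char0
  obtain ⟨ϖ, hϖ⟩ := hk.unif
  have hϖ0 : ϖ ≠ 0 := by
    intro h0
    rw [h0, map_zero] at hϖ
    exact exp_ne_zero hϖ.symm
  set G : Matrix (Fin 2) (Fin 2) k := (γ₀ : Matrix (Fin 2) (Fin 2) k) with hG
  -- the scaling exponent
  set m : ℕ := max (log (Valued.v G.trace)).toNat (log (Valued.v G.det)).toNat with hm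
  have hτ : Valued.v G.trace ≤ exp (m : ℤ) := le_exp_toNat962 _ m (le_max_left _ _)
  have hδ : Valued.v G.det ≤ exp (m : ℤ) := le_exp_toNat962 _ m (le_max_right _ _)
  have hvp : Valued.v (ϖ ^ m) = exp (-(m : ℤ)) := by
    rw [map_pow, hϖ, ← exp_nsmul]
    simp
  have ha : Valued.v (-(((ϖ ^ m) ^ 2) * G.det)) ≤ 1 := by
    rw [Valuation.map_neg, map_mul, map_pow, hvp]
    calc exp (-(m : ℤ)) ^ 2 * Valued.v G.det ≤ exp (-(m : ℤ)) ^ 2 * exp (m : ℤ) :=
          mul_le_mul' le_rfl hδ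
      _ ≤ 1 := by
          rw [pow_two, ← exp_add, ← exp_add, ← exp_zero, exp_le_exp]
          omega
  have hb : Valued.v ((ϖ ^ m) * G.trace) ≤ 1 := by
    rw [map_mul, hvp]
    calc exp (-(m : ℤ)) * Valued.v G.trace ≤ exp (-(m : ℤ)) * exp (m : ℤ) :=
          mul_le_mul' le_rfl hτ
      _ ≤ 1 := by
          rw [← exp_add, ← exp_zero, exp_le_exp]
          omega
  -- the algebra and the morphism
  let Φ : QuadraticAlgebra k (-(((ϖ ^ m) ^ 2) * G.det)) ((ϖ ^ m) * G.trace)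
      →ₐ[k] Matrix (Fin 2) (Fin 2) k :=
    QuadraticAlgebra.lift ⟨(ϖ ^ m) • G, cayley962 G (ϖ ^ m)⟩
  have hΦ : ∀ z : QuadraticAlgebra k (-(((ϖ ^ m) ^ 2) * G.det)) ((ϖ ^ m) * G.trace),
      Φ z = z.re • (1 : Matrix (Fin 2) (Fin 2) k) + z.im • ((ϖ ^ m) • G) := fun z => rfl
  have hN := isUNorm_qn962 ha hb
  -- the constant of `l`
  have hl0 : ((l : ℕ) : k) ≠ 0 := Nat.cast_ne_zero.2 hl.ne'
  have hv0 : Valued.v ((l : k)) ≠ 0 := (Valuation.ne_zero_iff _).2 hl0
  set c : ℤ := - log (Valued.v ((l : k))) with hc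
  have hvl : Valued.v ((l : k)) = exp (-c) := by
    rw [hc, neg_neg, exp_log hv0]
  have hc0 : 0 ≤ c := by
    have h1 : Valued.v ((l : k)) ≤ 1 := by
      have := hN.natCast_le l
      exact (re_le_qn962 _).trans this
    rw [hvl, ← exp_zero, exp_le_exp] at h1
    omega
  set K : ℕ := M.toNat with hK
  refine ⟨2 * c + 1 + (K : ℤ) + (m : ℤ), fun x y hx hy => ?_⟩
  -- the target
  set u : QuadraticAlgebra k (-(((ϖ ^ m) ^ 2) * G.det)) ((ϖ ^ m) * G.trace) :=
    ⟨x, y * (ϖ ^ m)⁻¹⟩ with hu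
  have hu1 : qn962 (u - 1) ≤ exp (-(2 * c + 1 + (K : ℤ))) := by
    refine max_le ?_ ?_
    · show Valued.v (x - 1) ≤ _
      refine hx.trans ?_
      rw [exp_le_exp]
      omega
    · show Valued.v (y * (ϖ ^ m)⁻¹ - 0) ≤ _
      rw [sub_zero, map_mul, map_inv₀, hvp, ← exp_neg, neg_neg]
      calc Valued.v y * exp (m : ℤ) ≤ exp (-(2 * c + 1 + (K : ℤ) + (m : ℤ))) * exp (m : ℤ) :=
            mul_le_mul' hy le_rfl
        _ = exp (-(2 * c + 1 + (K : ℤ))) := by
            rw [← exp_add]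
            congr 1
            ring
  have hj : ((l : ℕ) : QuadraticAlgebra k (-(((ϖ ^ m) ^ 2) * G.det)) ((ϖ ^ m) * G.trace))
      * ⟨((l : ℕ) : k)⁻¹, 0⟩ = 1 := by
    ext
    · simp [hl0]
      rfl
    · simp
      rfl
  have hNj : qn962 (⟨((l : ℕ) : k)⁻¹, 0⟩ :
      QuadraticAlgebra k (-(((ϖ ^ m) ^ 2) * G.det)) ((ϖ ^ m) * G.trace)) ≤ exp c := by
    refine max_le ?_ ?_
    · show Valued.v (((l : ℕ) : k)⁻¹) ≤ _
      rw [map_inv₀, hvl, ← exp_neg, neg_neg]
    · show Valued.v (0 : k) ≤ _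
      simp
  obtain ⟨L, hL1, hLu⟩ := exists_rootA962 hN (qn_lim962 hk.unif) qn_sep962 l _ hj c hc0 hNj K u hu1
  refine ⟨L.re, L.im * ϖ ^ m, ?_, ?_, ?_⟩
  · have h1 : Valued.v (L.re - 1) ≤ qn962 (L - 1) := le_max_left _ _
    refine (h1.trans hL1).trans ?_
    rw [exp_le_exp]
    omega
  · have h1 : Valued.v (L.im - 0) ≤ qn962 (L - 1) := le_max_right _ _
    rw [sub_zero] at h1
    rw [map_mul, hvp]
    calc Valued.v L.im * exp (-(m : ℤ)) ≤ exp (-(c + 1 + (K : ℤ))) * exp (-(m : ℤ)) :=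
          mul_le_mul' (h1.trans hL1) le_rfl
      _ ≤ exp (-M) := by
          rw [← exp_add, exp_le_exp]
          omega
  · have e1 : L.re • (1 : Matrix (Fin 2) (Fin 2) k) + (L.im * ϖ ^ m) • G = Φ L := by
      rw [hΦ, smul_smul]
    have e2 : x • (1 : Matrix (Fin 2) (Fin 2) k) + y • G = Φ u := by
      rw [hΦ, smul_smul]
      show _ = x • (1 : Matrix (Fin 2) (Fin 2) k) + (y * (ϖ ^ m)⁻¹ * ϖ ^ m) • G
      rw [inv_mul_cancel_right₀ (pow_ne_zero _ hϖ0)]
    rw [e1, e2, ← map_pow, hLu]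

end Leaf

end Fermat.Agent.LT.T6.H962

end
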